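import Fermat.Agent.LT.HF

set_option autoImplicit false

/-!
# The hyperbolic distance on `H3` (through `cosh d`)
-/

namespace Fermat.Agent.LT

open Matrix ComplexConjugate

namespace H3

/-- `cosh` of the hyperbolic distance -/
noncomputable def cd (p p' : H3) : ℝ :=
  (‖p.z - p'.z‖ ^ 2 + p.y ^ 2 + p'.y ^ 2) / (2 * p.y * p'.y)

theorem cd_symm (p p' : H3) : cd p p' = cd p' p := by
  rw [cd, cd, norm_sub_rev]
  ring_nf

theorem one_le_cd (p p' : H3) : 1 ≤ cd p p' := by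
  have h1 := p.pos
  have h2 := p'.pos
  rw [cd, le_div_iff₀ (by positivity)]
  nlinarith [sq_nonneg (p.y - p'.y), sq_nonneg ‖p.z - p'.z‖]

theorem cd_self (p : H3) : cd p p = 1 := by
  have h1 := p.pos
  rw [cd, sub_self, norm_zero]
  field_simp
  ring

theorem cd_eq_one_iff (p p' : H3) : cd p p' = 1 ↔ p = p' := by
  constructor
  · intro h
    have h1 := p.pos
    have h2 := p'.pos
    rw [cd, div_eq_iff (by positivity)] at h
    have h3 : ‖p.z - p'.z‖ ^ 2 + (p.y - p'.y) ^ 2 = 0 := by linarith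
    have h4 : ‖p.z - p'.z‖ ^ 2 = 0 := by nlinarith [sq_nonneg (p.y - p'.y), sq_nonneg ‖p.z - p'.z‖]
    have h5 : (p.y - p'.y) ^ 2 = 0 := by nlinarith [sq_nonneg (p.y - p'.y), sq_nonneg ‖p.z - p'.z‖]
    rw [sq_eq_zero_iff, norm_eq_zero, sub_eq_zero] at h4
    rw [sq_eq_zero_iff, sub_eq_zero] at h5
    exact H3.ext h4 h5
  · rintro rfl
    exact cd_self p

theorem y_le (p p' : H3) : p'.y ≤ 2 * cd p p' * p.y := by
  have h1 := p.pos
  have h2 := p'.pos
  have h : 2 * cd p p' * p.y = (‖p.z - p'.z‖ ^ 2 + p.y ^ 2 + p'.y ^ 2) / p'.y := by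
    rw [cd]; field_simp
  rw [h, le_div_iff₀ h2]
  nlinarith [sq_nonneg ‖p.z - p'.z‖, sq_nonneg p.y]

theorem z_le (p p' : H3) : ‖p.z - p'.z‖ ^ 2 ≤ 2 * cd p p' * p.y * p'.y := by
  have h1 := p.pos
  have h2 := p'.pos
  have h : 2 * cd p p' * p.y * p'.y = ‖p.z - p'.z‖ ^ 2 + p.y ^ 2 + p'.y ^ 2 := by
    rw [cd]; field_simp
  rw [h]
  nlinarith [sq_nonneg p.y, sq_nonneg p'.y]

/-- `cosh d` in terms of the Hermitian forms (polarised determinant) -/
theorem two_cd (p p' : H3) : 2 * cd p p' = p.q 1 0 * p'.q 0 1 + p.q 0 1 * p'.q 1 0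
    - 2 * (p.z * conj p'.z).re / (p.y * p'.y) := by
  have h1 := p.pos
  have h2 := p'.pos
  have e : ‖p.z - p'.z‖ ^ 2 = ‖p.z‖ ^ 2 - 2 * (p.z * conj p'.z).re + ‖p'.z‖ ^ 2 := by
    simp only [Complex.sq_norm, Complex.normSq_apply, Complex.sub_re, Complex.sub_im,
      Complex.mul_re, Complex.conj_re, Complex.conj_im]
    ring
  rw [cd, q, q, q, q, den, den, den, den, e]
  simp only [one_mul, add_zero, norm_one, one_pow, zero_mul, zero_add, norm_zero]
  field_simp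
  ring

/-- the Hermitian matrix of a point -/
noncomputable def hm (p : H3) : Matrix (Fin 2) (Fin 2) ℂ :=
  !![((‖p.z‖ ^ 2 + p.y ^ 2 : ℝ) : ℂ) / p.y, p.z / p.y; conj p.z / p.y, 1 / p.y]

theorem hm_quad (p : H3) (c d : ℂ) : (p.q c d : ℂ) =
    c * hm p 0 0 * conj c + c * hm p 0 1 * conj d + d * hm p 1 0 * conj c +
      d * hm p 1 1 * conj d := by
  have h1 : (p.y : ℂ) ≠ 0 := by exact_mod_cast p.pos.ne'
  have e : ((p.den c d : ℝ) : ℂ) = c * (p.z * conj p.z + (p.y : ℂ) ^ 2) * conj c +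
      c * p.z * conj d + d * conj p.z * conj c + d * conj d := by
    rw [den]
    push_cast
    rw [← Complex.mul_conj', ← Complex.mul_conj']
    simp only [map_add, map_mul]
    ring
  rw [q]
  push_cast
  rw [e]
  simp only [hm, Matrix.of_apply, Matrix.cons_val', Matrix.cons_val_zero, Matrix.cons_val_one,
    Matrix.cons_val_fin_one]
  push_cast
  rw [← Complex.mul_conj']
  field_simp

theorem trace_hm (p p' : H3) : Matrix.trace (Matrix.adjugate (hm p) * hm p') =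
    ((2 * cd p p' : ℝ) : ℂ) := by
  have h1 : (p.y : ℂ) ≠ 0 := by exact_mod_cast p.pos.ne'
  have h2 : (p'.y : ℂ) ≠ 0 := by exact_mod_cast p'.pos.ne'
  rw [Matrix.adjugate_fin_two, Matrix.trace_fin_two, cd]
  simp only [hm, Matrix.mul_apply, Fin.sum_univ_two, Matrix.of_apply, Matrix.cons_val',
    Matrix.cons_val_zero, Matrix.cons_val_one, Matrix.cons_val_fin_one]
  push_cast
  rw [← Complex.mul_conj', ← Complex.mul_conj', ← Complex.mul_conj']
  simp only [map_sub]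
  field_simp
  ring

/-- Hermitian forms with the same values have the same matrices -/
theorem hm_smul (g : GL (Fin 2) ℂ) (p : H3) : hm (g • p) =
    ((‖(g : Matrix (Fin 2) (Fin 2) ℂ).det‖ : ℝ) : ℂ)⁻¹ •
      ((g : Matrix (Fin 2) (Fin 2) ℂ) * hm p * (g : Matrix (Fin 2) (Fin 2) ℂ)ᴴ) := by
  -- both sides are Hermitian forms with the same quadratic values
  set M := ((‖(g : Matrix (Fin 2) (Fin 2) ℂ).det‖ : ℝ) : ℂ)⁻¹ •
      ((g : Matrix (Fin 2) (Fin 2) ℂ) * hm p * (g : Matrix (Fin 2) (Fin 2) ℂ)ᴴ) with hM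
  have key : ∀ c d : ℂ, c * hm (g • p) 0 0 * conj c + c * hm (g • p) 0 1 * conj d +
      d * hm (g • p) 1 0 * conj c + d * hm (g • p) 1 1 * conj d =
      c * M 0 0 * conj c + c * M 0 1 * conj d + d * M 1 0 * conj c + d * M 1 1 * conj d := by
    intro c d
    rw [← hm_quad, q_smul_eq]
    push_cast
    rw [hm_quad, hM]
    simp only [Matrix.smul_apply, Matrix.mul_apply, Fin.sum_univ_two, Matrix.conjTranspose_apply,
      smul_eq_mul, map_add, map_mul, RCLike.star_def]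
    ring
  have k1 := key 1 0
  have k2 := key 0 1
  have k3 := key 1 1
  have k4 := key 1 Complex.I
  simp only [map_one, map_zero, mul_one, mul_zero, add_zero, zero_mul, zero_add, one_mul,
    Complex.conj_I] at k1 k2 k3 k4
  have k5 : hm (g • p) 0 1 + hm (g • p) 1 0 = M 0 1 + M 1 0 := by
    linear_combination k3 - k1 - k2
  have k6 : -(hm (g • p) 0 1) + hm (g • p) 1 0 = -(M 0 1) + M 1 0 := by
    have hI : Complex.I * Complex.I = -1 := Complex.I_mul_I
    have : Complex.I * (-(hm (g • p) 0 1) + hm (g • p) 1 0) = Complex.I * (-(M 0 1) + M 1 0) := by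
      linear_combination k4 - k1 - k2 + (hm (g • p) 1 1 - M 1 1) * hI
    exact mul_left_cancel₀ Complex.I_ne_zero this
  ext i j
  fin_cases i <;> fin_cases j
  · exact k1
  · show hm (g • p) 0 1 = M 0 1
    linear_combination (k5 - k6) / 2
  · show hm (g • p) 1 0 = M 1 0
    linear_combination (k5 + k6) / 2
  · exact k2

/-- **Invariance of the distance.** -/
theorem cd_smul (g : GL (Fin 2) ℂ) (p p' : H3) : cd (g • p) (g • p') = cd p p' := by
  have hd : (g : Matrix (Fin 2) (Fin 2) ℂ).det ≠ 0 := g.det_ne_zero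
  have hn : ((‖(g : Matrix (Fin 2) (Fin 2) ℂ).det‖ : ℝ) : ℂ) ≠ 0 := by
    exact_mod_cast norm_ne_zero_iff.mpr hd
  have h : ((2 * cd (g • p) (g • p') : ℝ) : ℂ) = ((2 * cd p p' : ℝ) : ℂ) := by
    rw [← trace_hm, ← trace_hm, hm_smul, hm_smul, Matrix.adjugate_smul, Matrix.adjugate_mul_distrib,
      Matrix.adjugate_mul_distrib]
    simp only [Fintype.card_fin, Nat.add_one_sub_one, pow_one, Matrix.smul_mul, Matrix.mul_smul,
      Matrix.trace_smul, smul_eq_mul]
    have e1 : (adjugate ((g : Matrix (Fin 2) (Fin 2) ℂ)ᴴ) *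
        (adjugate (hm p) * adjugate (g : Matrix (Fin 2) (Fin 2) ℂ)) *
        ((g : Matrix (Fin 2) (Fin 2) ℂ) * hm p' * (g : Matrix (Fin 2) (Fin 2) ℂ)ᴴ)).trace =
        (g : Matrix (Fin 2) (Fin 2) ℂ).det * conj (g : Matrix (Fin 2) (Fin 2) ℂ).det *
          (adjugate (hm p) * hm p').trace := by
      have e2 : adjugate ((g : Matrix (Fin 2) (Fin 2) ℂ)ᴴ) *
        (adjugate (hm p) * adjugate (g : Matrix (Fin 2) (Fin 2) ℂ)) *
        ((g : Matrix (Fin 2) (Fin 2) ℂ) * hm p' * (g : Matrix (Fin 2) (Fin 2) ℂ)ᴴ) =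
        adjugate ((g : Matrix (Fin 2) (Fin 2) ℂ)ᴴ) *
          (adjugate (hm p) * (adjugate (g : Matrix (Fin 2) (Fin 2) ℂ) *
          (g : Matrix (Fin 2) (Fin 2) ℂ)) * hm p') * (g : Matrix (Fin 2) (Fin 2) ℂ)ᴴ := by
        simp only [Matrix.mul_assoc]
      rw [e2, Matrix.adjugate_mul, Matrix.trace_mul_comm, ← Matrix.mul_assoc, Matrix.mul_adjugate,
        Matrix.det_conjTranspose]
      simp only [Matrix.mul_smul, Matrix.smul_mul, Matrix.mul_one, Matrix.one_mul,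
        Matrix.trace_smul, smul_eq_mul, RCLike.star_def]
      ring
    rw [e1, Complex.mul_conj']
    field_simp
  have h' : 2 * cd (g • p) (g • p') = 2 * cd p p' := by exact_mod_cast h
  linarith

/-- base point -/
def j : H3 := ⟨0, 1, one_pos⟩

/-- the upper triangular matrix moving `j` to `p` -/
noncomputable def up (p : H3) : GL (Fin 2) ℂ :=
  Matrix.GeneralLinearGroup.mkOfDetNeZero !![(p.y : ℂ), p.z; 0, 1] (by
    rw [Matrix.det_fin_two_of]
    simpa using p.pos.ne')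

theorem up_smul_j (p : H3) : up p • j = p := by
  have e1 : (up p) 0 0 = (p.y : ℂ) := rfl
  have e2 : (up p) 0 1 = p.z := rfl
  have e3 : (up p) 1 0 = 0 := rfl
  have e4 : (up p) 1 1 = 1 := rfl
  have e5 : ((up p : GL (Fin 2) ℂ) : Matrix (Fin 2) (Fin 2) ℂ).det = (p.y : ℂ) := by
    rw [Matrix.det_fin_two, e1, e2, e3, e4]; ring
  apply H3.ext
  · rw [smul_z, e1, e2, e3, e4]
    simp [num, den, j]
  · rw [smul_y, e5, e3, e4]
    simp [den, j, abs_of_pos p.pos]

theorem cd_le_mul_j (p p' : H3) : cd p p' ≤ 2 * cd p j * cd j p' := by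
  have h1 := p.pos
  have h2 := p'.pos
  have e : 2 * cd p j * cd j p' =
      ((‖p.z‖ ^ 2 + p.y ^ 2 + 1) * (‖p'.z‖ ^ 2 + p'.y ^ 2 + 1)) / (2 * p.y * p'.y) := by
    rw [cd, cd]
    simp only [j, sub_zero, zero_sub, norm_neg]
    field_simp
    ring
  rw [e, cd]
  gcongr
  have h3 : ‖p.z - p'.z‖ ≤ ‖p.z‖ + ‖p'.z‖ := norm_sub_le _ _
  have h4 : ‖p.z - p'.z‖ ^ 2 ≤ (‖p.z‖ + ‖p'.z‖) ^ 2 := by gcongr
  nlinarith [sq_nonneg (‖p.z‖ * ‖p'.z‖ - 1), sq_nonneg (‖p.z‖ * p'.y), sq_nonneg (p.y * ‖p'.z‖),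
    sq_nonneg (p.y * p'.y), norm_nonneg p.z, norm_nonneg p'.z]

/-- **Quasi-triangle inequality** (`cosh (a + b) ≤ 2 cosh a cosh b`). -/
theorem cd_triangle (p p' p'' : H3) : cd p p'' ≤ 2 * cd p p' * cd p' p'' := by
  have h := cd_le_mul_j ((up p')⁻¹ • p) ((up p')⁻¹ • p'')
  have hj : (up p')⁻¹ • p' = j := by rw [inv_smul_eq_iff, up_smul_j]
  rw [← hj, cd_smul, cd_smul, cd_smul] at h
  exact h

end H3

end Fermat.Agent.LT
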