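import Mathlib

set_option autoImplicit false

/-! # Poisson summation in several variables -/

namespace Fermat.Agent.LT

open MeasureTheory Complex Topology
open scoped Real ComplexConjugate

variable {d : Type*} [Fintype d]

/-- weight function -/
noncomputable def pwt (x : d → ℝ) : ℝ := ∏ i, (1 + (x i) ^ 2)⁻¹

theorem pwt_pos (x : d → ℝ) : 0 < pwt x :=
  Finset.prod_pos fun i _ => by positivity

theorem pwt_add_le (x k : d → ℝ) : pwt (x + k) ≤ (∏ i, 2 * (1 + (x i) ^ 2)) * pwt k := by
  unfold pwt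
  rw [← Finset.prod_mul_distrib]
  apply Finset.prod_le_prod
  · intro i _; positivity
  · intro i _
    rw [Pi.add_apply, inv_le_iff_one_le_mul₀ (by positivity), ← div_eq_mul_inv, div_mul_eq_mul_div,
      le_div_iff₀ (by positivity)]
    nlinarith [sq_nonneg (x i + k i), sq_nonneg (x i * (x i + k i)), sq_nonneg (2 * x i + k i),
      mul_nonneg (sq_nonneg (x i)) (sq_nonneg (x i + k i)), sq_nonneg (k i)]

omit [Fintype d] in
theorem summable_prod_pi {ι : Type*} [Fintype d] (a : d → ι → ℝ) (h0 : ∀ i j, 0 ≤ a i j)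
    (h : ∀ i, Summable (a i)) : Summable (fun k : d → ι => ∏ i, a i (k i)) := by
  classical
  refine summable_of_sum_le (c := ∏ i, ∑' j, a i j)
    (fun k => Finset.prod_nonneg fun i _ => h0 i _) ?_
  intro s
  let t : d → Finset ι := fun i => s.image fun k => k i
  have hst : s ⊆ Fintype.piFinset t := by
    intro k hk
    rw [Fintype.mem_piFinset]
    intro i
    exact Finset.mem_image_of_mem _ hk
  calc ∑ k ∈ s, ∏ i, a i (k i) ≤ ∑ k ∈ Fintype.piFinset t, ∏ i, a i (k i) :=
        Finset.sum_le_sum_of_subset_of_nonneg hst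
          (fun k _ _ => Finset.prod_nonneg fun i _ => h0 i _)
    _ = ∏ i, ∑ j ∈ t i, a i j := (Finset.prod_univ_sum _ _).symm
    _ ≤ ∏ i, ∑' j, a i j := by
        apply Finset.prod_le_prod
        · intro i _; exact Finset.sum_nonneg fun j _ => h0 i j
        · intro i _; exact (h i).sum_le_tsum _ fun j _ => h0 i j

theorem summable_one_add_sq_inv : Summable (fun k : ℤ => (1 + (k : ℝ) ^ 2)⁻¹) := by
  have h := (Real.summable_one_div_int_pow (p := 2)).mpr one_lt_two
  have h2 : Summable (fun k : ℤ => (if k = 0 then (1 : ℝ) else 0) + 1 / (k : ℝ) ^ 2) := by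
    apply Summable.add _ h
    exact summable_of_ne_finset_zero (s := {0}) (fun b hb => by
      rw [if_neg (by simpa using hb)])
  refine Summable.of_nonneg_of_le (fun k => by positivity) (fun k => ?_) h2
  by_cases hk : k = 0
  · simp [hk]
  · rw [if_neg hk, zero_add, one_div]
    have : (0 : ℝ) < (k : ℝ) ^ 2 := by positivity
    apply inv_anti₀ this
    linarith

theorem summable_pwt : Summable (fun k : d → ℤ => pwt (fun i => (k i : ℝ))) :=
  summable_prod_pi (fun _ (j : ℤ) => (1 + (j : ℝ) ^ 2)⁻¹) (fun _ _ => by positivity)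
    (fun _ => summable_one_add_sq_inv)

theorem integrable_pwt : Integrable (pwt : (d → ℝ) → ℝ) := by
  have : (pwt : (d → ℝ) → ℝ) = fun x => ∏ i, (fun t : ℝ => (1 + t ^ 2)⁻¹) (x i) := rfl
  rw [this]
  exact Integrable.fintype_prod (fun _ => integrable_inv_one_add_sq)

/-- the cast `ℤ^d → ℝ^d` -/
def zc (k : d → ℤ) : d → ℝ := fun i => (k i : ℝ)

/-- the additive character `x ↦ e(m·x)` -/
noncomputable def ee (m : d → ℤ) (x : d → ℝ) : ℂ := cexp (2 * π * I * ∑ i, (m i : ℂ) * (x i : ℂ))

theorem norm_ee (m : d → ℤ) (x : d → ℝ) : ‖ee m x‖ = 1 := by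
  unfold ee
  have : (2 * π * I * ∑ i, (m i : ℂ) * (x i : ℂ)) =
      ((2 * π * ∑ i, (m i : ℝ) * (x i : ℝ) : ℝ) : ℂ) * I := by
    push_cast; ring
  rw [this, Complex.norm_exp_ofReal_mul_I]

theorem continuous_ee (m : d → ℤ) : Continuous (ee m) := by
  unfold ee
  fun_prop

theorem ee_add_zc (m : d → ℤ) (x : d → ℝ) (k : d → ℤ) : ee m (x + zc k) = ee m x := by
  unfold ee zc
  rw [Complex.exp_eq_exp_iff_exists_int]
  refine ⟨∑ i, m i * k i, ?_⟩
  push_cast [Pi.add_apply]
  rw [show (∑ i, (m i : ℂ) * ((x i : ℂ) + (k i : ℂ))) =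
    ∑ i, (m i : ℂ) * (x i : ℂ) + ∑ i, (m i : ℂ) * (k i : ℂ) by
      rw [← Finset.sum_add_distrib]; exact Finset.sum_congr rfl fun i _ => by ring]
  ring

theorem mFourier_coe (m : d → ℤ) (x : d → ℝ) :
    UnitAddTorus.mFourier m (fun i => (x i : UnitAddCircle)) = ee m x := by
  unfold UnitAddTorus.mFourier ee
  simp only [ContinuousMap.coe_mk, fourier_coe_apply]
  rw [← Complex.exp_sum]
  congr 1
  rw [Finset.mul_sum]
  apply Finset.sum_congr rfl
  intro i _
  push_cast
  ring

/-- the Fourier coefficient -/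
noncomputable def FT (f : (d → ℝ) → ℂ) (m : d → ℤ) : ℂ := ∫ x, ee (-m) x * f x

section

variable {f : (d → ℝ) → ℂ} (hf : Continuous f) {C : ℝ} (hC : ∀ x, ‖f x‖ ≤ C * pwt x)

include hC in
theorem summable_trans (x : d → ℝ) : Summable (fun k : d → ℤ => f (x + zc k)) := by
  apply Summable.of_norm_bounded (g := fun k => C * ((∏ i, 2 * (1 + (x i) ^ 2)) * pwt (zc k)))
  · exact (summable_pwt.mul_left _).mul_left _
  · intro k
    have h0 : 0 ≤ C := by
      have := (norm_nonneg _).trans (hC 0)
      exact nonneg_of_mul_nonneg_left this (pwt_pos _)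
    exact (hC _).trans (mul_le_mul_of_nonneg_left (pwt_add_le x (zc k)) h0)

include hf hC in
theorem continuous_periodization : Continuous (fun x : d → ℝ => ∑' k : d → ℤ, f (x + zc k)) := by
  have h0 : 0 ≤ C := by
    have := (norm_nonneg _).trans (hC 0)
    exact nonneg_of_mul_nonneg_left this (pwt_pos _)
  rw [continuous_iff_continuousAt]
  intro x0
  have hcont : Continuous (fun x : d → ℝ => ∏ i, 2 * (1 + (x i) ^ 2)) := by fun_prop
  obtain ⟨M, hM⟩ : ∃ M, ∀ x ∈ Metric.closedBall x0 1, (∏ i, 2 * (1 + (x i) ^ 2)) ≤ M := by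
    obtain ⟨M, hM⟩ := (isCompact_closedBall x0 1).exists_bound_of_continuousOn hcont.continuousOn
    exact ⟨M, fun x hx => (le_abs_self _).trans (hM x hx)⟩
  have hon : ContinuousOn (fun x : d → ℝ => ∑' k : d → ℤ, f (x + zc k)) (Metric.ball x0 1) := by
    apply continuousOn_tsum (u := fun k : d → ℤ => C * (M * pwt (zc k)))
    · intro k
      exact (hf.comp (continuous_id.add continuous_const)).continuousOn
    · exact (summable_pwt.mul_left _).mul_left _
    · intro k x hx
      refine (hC _).trans (mul_le_mul_of_nonneg_left ?_ h0)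
      refine (pwt_add_le x (zc k)).trans (mul_le_mul_of_nonneg_right ?_ (pwt_pos _).le)
      exact hM x (Metric.ball_subset_closedBall hx)
  exact hon.continuousAt (Metric.ball_mem_nhds _ one_pos)

theorem isOpenQuotientMap_torus :
    IsOpenQuotientMap (fun (x : d → ℝ) => (fun i => (x i : UnitAddCircle) : UnitAddTorus d)) :=
  IsOpenQuotientMap.piMap (fun _ => QuotientAddGroup.isOpenQuotientMap_mk)

theorem torus_eq_iff (x y : d → ℝ)
    (h : (fun i => (x i : UnitAddCircle) : UnitAddTorus d) = fun i => (y i : UnitAddCircle)) :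
    ∃ k : d → ℤ, y = x + zc k := by
  have : ∀ i, ∃ k : ℤ, y i = x i + k := by
    intro i
    have h2 : ((x i : ℝ) : UnitAddCircle) = (y i : UnitAddCircle) := congrFun h i
    rw [QuotientAddGroup.eq] at h2
    obtain ⟨k, hk⟩ := AddSubgroup.mem_zmultiples_iff.mp h2
    refine ⟨k, ?_⟩
    simp only [zsmul_eq_mul, mul_one] at hk
    rw [hk]; abel
  choose k hk using this
  exact ⟨k, funext hk⟩

/-- the periodization on the torus -/
noncomputable def per (f : (d → ℝ) → ℂ) (t : UnitAddTorus d) : ℂ :=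
  ∑' k : d → ℤ, f ((fun i => (AddCircle.equivIoc 1 0 (t i)).1) + zc k)

theorem per_coe (f : (d → ℝ) → ℂ) (x : d → ℝ) :
    per f (fun i => (x i : UnitAddCircle)) = ∑' k : d → ℤ, f (x + zc k) := by
  unfold per
  obtain ⟨k0, hk0⟩ := torus_eq_iff x
    (fun i => (AddCircle.equivIoc 1 0 ((x i : ℝ) : AddCircle (1 : ℝ))).1) (by
      funext i
      exact (AddCircle.coe_equivIoc (p := 1) (a := 0)).symm)
  rw [hk0]
  rw [← (Equiv.addLeft k0).tsum_eq (fun k => f (x + zc k))]
  apply tsum_congr
  intro k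
  congr 1
  funext i
  simp only [zc, Pi.add_apply, Equiv.coe_addLeft]
  push_cast
  ring

end

/-- unit boxes -/
def box (k : d → ℤ) : Set (d → ℝ) := {x | ∀ i, x i ∈ Set.Ioc (k i : ℝ) ((k i : ℝ) + 1)}

theorem measurableSet_box (k : d → ℤ) : MeasurableSet (box k) :=
  MeasurableSet.univ_pi' fun _ => measurableSet_Ioc

theorem mem_box_iff (k : d → ℤ) (x : d → ℝ) : x ∈ box k ↔ ∀ i, ⌈x i⌉ = k i + 1 := by
  unfold box
  simp only [Set.mem_setOf_eq, Set.mem_Ioc]
  apply forall_congr'
  intro i
  rw [Int.ceil_eq_iff]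
  push_cast
  constructor
  · rintro ⟨h1, h2⟩; constructor <;> linarith
  · rintro ⟨h1, h2⟩; constructor <;> linarith

theorem pairwise_disjoint_box : Pairwise (Function.onFun Disjoint (box : (d → ℤ) → Set (d → ℝ))) := by
  intro k l hkl
  rw [Function.onFun, Set.disjoint_left]
  intro x hk hl
  apply hkl
  rw [mem_box_iff] at hk hl
  funext i
  have := hk i
  have := hl i
  omega

theorem iUnion_box : ⋃ k : d → ℤ, box k = (Set.univ : Set (d → ℝ)) := by
  rw [Set.eq_univ_iff_forall]
  intro x
  rw [Set.mem_iUnion]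
  refine ⟨fun i => ⌈x i⌉ - 1, ?_⟩
  rw [mem_box_iff]
  intro i; ring

theorem setIntegral_box {E : Type*} [NormedAddCommGroup E] [NormedSpace ℝ E]
    (g : (d → ℝ) → E) (k : d → ℤ) : ∫ x in box k, g x = ∫ x in box 0, g (x + zc k) := by
  have h := (measurePreserving_add_right (volume : Measure (d → ℝ)) (zc k)).setIntegral_preimage_emb
    (measurableEmbedding_addRight (zc k)) g (box k)
  rw [← h]
  congr 1
  congr 1
  ext x
  simp only [Set.mem_preimage, box, Set.mem_setOf_eq, zc, Pi.add_apply, Pi.zero_apply, Set.mem_Ioc,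
    Int.cast_zero, zero_add]
  apply forall_congr'
  intro i
  constructor
  · rintro ⟨h1, h2⟩; constructor <;> linarith
  · rintro ⟨h1, h2⟩; constructor <;> linarith

theorem hasSum_box {E : Type*} [NormedAddCommGroup E] [NormedSpace ℝ E]
    {g : (d → ℝ) → E} (hg : Integrable g) :
    HasSum (fun k : d → ℤ => ∫ x in box 0, g (x + zc k)) (∫ x, g x) := by
  have h := hasSum_integral_iUnion (μ := volume) (f := g) (s := (box : (d → ℤ) → Set (d → ℝ)))
    measurableSet_box pairwise_disjoint_box hg.integrableOn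
  rw [iUnion_box, setIntegral_univ] at h
  have h2 : (fun k : d → ℤ => ∫ x in box k, g x) = fun k => ∫ x in box 0, g (x + zc k) := by
    funext k
    exact setIntegral_box g k
  rwa [h2] at h

section

variable {f : (d → ℝ) → ℂ} (hf : Continuous f) {C : ℝ} (hC : ∀ x, ‖f x‖ ≤ C * pwt x)

include hf hC in
theorem integrable_of_bound : Integrable f :=
  (integrable_pwt.const_mul C).mono' hf.aestronglyMeasurable (Filter.Eventually.of_forall hC)

include hf hC in
theorem mFourierCoeff_per (m : d → ℤ) : UnitAddTorus.mFourierCoeff (per f) m = FT f m := by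
  rw [UnitAddTorus.mFourierCoeff_eq_integral (per f) m (fun _ => 0)]
  have hbox : {x : d → ℝ | ∀ i, x i ∈ Set.Ioc ((fun _ => 0 : d → ℝ) i) ((fun _ => 0 : d → ℝ) i + 1)} =
      box 0 := by
    ext x; simp [box]
  rw [hbox]
  set g : (d → ℝ) → ℂ := fun x => ee (-m) x * f x with hg
  have hgi : Integrable g := by
    refine (integrable_of_bound hf hC).norm.mono' ?_ (Filter.Eventually.of_forall fun x => ?_)
    · exact ((continuous_ee _).mul hf).aestronglyMeasurable
    · rw [hg]; simp only [norm_mul, norm_ee, one_mul, le_refl]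
  have h1 : ∀ x : d → ℝ, UnitAddTorus.mFourier (-m) (fun i => (x i : UnitAddCircle)) •
      per f (fun i => (x i : UnitAddCircle)) = ∑' k : d → ℤ, g (x + zc k) := by
    intro x
    rw [mFourier_coe, per_coe, smul_eq_mul, ← tsum_mul_left]
    apply tsum_congr
    intro k
    rw [hg]
    simp only [ee_add_zc]
  simp_rw [h1]
  unfold FT
  rw [← (hasSum_box hgi).tsum_eq]
  symm
  apply integral_tsum_of_summable_integral_norm
  · intro k
    have : Integrable (fun x => g (x + zc k)) := hgi.comp_add_right (zc k)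
    exact this.integrableOn
  · exact (hasSum_box hgi.norm).summable

include hf hC in
theorem continuous_per : Continuous (per f) := by
  rw [isOpenQuotientMap_torus.isQuotientMap.continuous_iff]
  have : (per f ∘ fun (x : d → ℝ) => (fun i => (x i : UnitAddCircle) : UnitAddTorus d)) =
      fun x => ∑' k : d → ℤ, f (x + zc k) := by
    funext x
    exact per_coe f x
  rw [this]
  exact continuous_periodization hf hC

/-- **Poisson summation** for `ℤ^d`. -/
theorem poisson (hf : Continuous f) (hC : ∀ x, ‖f x‖ ≤ C * pwt x)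
    (hs : Summable (fun m : d → ℤ => FT f m)) (x : d → ℝ) :
    ∑' k : d → ℤ, f (x + zc k) = ∑' m : d → ℤ, FT f m * ee m x := by
  have hc := continuous_per hf hC
  have hs' : Summable (UnitAddTorus.mFourierCoeff (⟨per f, hc⟩ : C(UnitAddTorus d, ℂ))) := by
    convert hs using 1
    funext m
    exact mFourierCoeff_per hf hC m
  have h := UnitAddTorus.hasSum_mFourier_series_apply_of_summable hs' (fun i => (x i : UnitAddCircle))
  have h2 := h.tsum_eq
  simp only [ContinuousMap.coe_mk, mFourierCoeff_per hf hC, mFourier_coe, per_coe, smul_eq_mul] at h2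
  exact h2.symm

end

end Fermat.Agent.LT
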