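import Mathlib

set_option autoImplicit false

/-!
# Hyperbolic 3-space, the action of `GL₂(ℂ)` and the associated Hermitian forms
-/

namespace Fermat.Agent.LT

open Matrix ComplexConjugate

/-- Hyperbolic 3-space, upper half space model. -/
@[ext] structure H3 where
  z : ℂ
  y : ℝ
  pos : 0 < y

namespace H3

/-- `|c z + d|² + |c|² y²` -/
noncomputable def den (x : H3) (c d : ℂ) : ℝ := ‖c * x.z + d‖ ^ 2 + ‖c‖ ^ 2 * x.y ^ 2

/-- The Hermitian form (of determinant one) attached to a point of `H3`. -/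
noncomputable def q (x : H3) (c d : ℂ) : ℝ := x.den c d / x.y

theorem den_pos (x : H3) {c d : ℂ} (h : c ≠ 0 ∨ d ≠ 0) : 0 < x.den c d := by
  have hy := x.pos
  rw [den]
  by_cases hc : c = 0
  · subst hc
    have hd : d ≠ 0 := h.resolve_left (fun h => h rfl)
    have : 0 < ‖d‖ := norm_pos_iff.mpr hd
    simp only [zero_mul, zero_add, norm_zero]
    positivity
  · have : 0 < ‖c‖ := norm_pos_iff.mpr hc
    positivity

theorem den_nonneg (x : H3) (c d : ℂ) : 0 ≤ x.den c d := by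
  rw [den]; positivity

theorem q_pos (x : H3) {c d : ℂ} (h : c ≠ 0 ∨ d ≠ 0) : 0 < x.q c d :=
  div_pos (x.den_pos h) x.pos

theorem q_nonneg (x : H3) (c d : ℂ) : 0 ≤ x.q c d := div_nonneg (x.den_nonneg c d) x.pos.le

theorem q_zero_one (x : H3) : x.q 0 1 = 1 / x.y := by simp [q, den]

/-- A point is determined by its Hermitian form. -/
theorem ext_q {x x' : H3} (h : ∀ c d : ℂ, x.q c d = x'.q c d) : x = x' := by
  have hy0 := x.pos
  have hy1 := x'.pos
  have h0 := h 0 1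
  rw [q_zero_one, q_zero_one] at h0
  have hy : x.y = x'.y := by
    rw [div_eq_div_iff hy0.ne' hy1.ne'] at h0
    linarith
  have key : ∀ d : ℂ, x.den 1 d = x'.den 1 d := by
    intro d
    have h1 := h 1 d
    rw [q, q, hy] at h1
    exact (div_left_inj' hy1.ne').mp h1
  have k0 := key 0
  have k1 := key 1
  have k2 := key Complex.I
  simp only [den, Complex.sq_norm, Complex.normSq_apply, hy, one_mul, add_zero, Complex.add_re,
    Complex.add_im, Complex.one_re, Complex.one_im, Complex.I_re, Complex.I_im] at k0 k1 k2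
  apply H3.ext
  · apply Complex.ext
    · linarith
    · linarith
  · exact hy

/-- scaling -/
theorem q_smul (x : H3) (t c d : ℂ) : x.q (t * c) (t * d) = ‖t‖ ^ 2 * x.q c d := by
  rw [q, q, den, den]
  rw [show t * c * x.z + t * d = t * (c * x.z + d) by ring, norm_mul, norm_mul]
  ring

/-- the numerator of the action -/
noncomputable def num (x : H3) (a b c d : ℂ) : ℂ :=
  (a * x.z + b) * conj (c * x.z + d) + a * conj c * (x.y : ℂ) ^ 2

/-- Lagrange identity -/
theorem lagrange (x : H3) (a b c d : ℂ) :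
    ‖x.num a b c d‖ ^ 2 + ‖a * d - b * c‖ ^ 2 * x.y ^ 2 = x.den a b * x.den c d := by
  have h : ∀ (A C : ℂ), ‖A * conj C + a * conj c * (x.y : ℂ) ^ 2‖ ^ 2 +
      ‖A * c - C * a‖ ^ 2 * x.y ^ 2 =
      (‖A‖ ^ 2 + ‖a‖ ^ 2 * x.y ^ 2) * (‖C‖ ^ 2 + ‖c‖ ^ 2 * x.y ^ 2) := by
    intro A C
    simp only [Complex.sq_norm, Complex.normSq_apply, Complex.add_re, Complex.add_im,
      Complex.mul_re, Complex.mul_im, Complex.conj_re, Complex.conj_im, Complex.sub_re,
      Complex.sub_im, ← Complex.ofReal_pow, Complex.ofReal_re, Complex.ofReal_im]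
    ring
  have h1 := h (a * x.z + b) (c * x.z + d)
  have h2 : (a * x.z + b) * c - (c * x.z + d) * a = -(a * d - b * c) := by ring
  rw [h2, norm_neg] at h1
  exact h1

/-- expansion of the Hermitian form -/
theorem den_expand (x : H3) (a b c d u v : ℂ) :
    x.den (u * a + v * c) (u * b + v * d) =
      ‖u‖ ^ 2 * x.den a b + 2 * (u * conj v * x.num a b c d).re + ‖v‖ ^ 2 * x.den c d := by
  have h : ∀ (A C : ℂ), ‖u * A + v * C‖ ^ 2 + ‖u * a + v * c‖ ^ 2 * x.y ^ 2 =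
      ‖u‖ ^ 2 * (‖A‖ ^ 2 + ‖a‖ ^ 2 * x.y ^ 2) +
      2 * (u * conj v * (A * conj C + a * conj c * (x.y : ℂ) ^ 2)).re +
      ‖v‖ ^ 2 * (‖C‖ ^ 2 + ‖c‖ ^ 2 * x.y ^ 2) := by
    intro A C
    simp only [Complex.sq_norm, Complex.normSq_apply, Complex.add_re, Complex.add_im,
      Complex.mul_re, Complex.mul_im, Complex.conj_re, Complex.conj_im, ← Complex.ofReal_pow,
      Complex.ofReal_re, Complex.ofReal_im]
    ring
  have h1 := h (a * x.z + b) (c * x.z + d)
  rw [← show (u * a + v * c) * x.z + (u * b + v * d) = u * (a * x.z + b) + v * (c * x.z + d) by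
    ring] at h1
  exact h1

variable (g h : GL (Fin 2) ℂ)

theorem row_ne (i : Fin 2) : g i 0 ≠ 0 ∨ g i 1 ≠ 0 := by
  by_contra hcon
  push Not at hcon
  have h1 : (g : Matrix (Fin 2) (Fin 2) ℂ).det ≠ 0 := g.det_ne_zero
  apply h1
  rw [Matrix.det_fin_two]
  fin_cases i
  · simp only [Fin.zero_eta, Fin.isValue] at hcon
    rw [hcon.1, hcon.2]; ring
  · simp only [Fin.mk_one, Fin.isValue] at hcon
    rw [hcon.1, hcon.2]; ring

/-- the action of `GL₂(ℂ)` -/
noncomputable def act (x : H3) : H3 where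
  z := x.num (g 0 0) (g 0 1) (g 1 0) (g 1 1) / (x.den (g 1 0) (g 1 1) : ℝ)
  y := ‖(g : Matrix (Fin 2) (Fin 2) ℂ).det‖ * x.y / x.den (g 1 0) (g 1 1)
  pos := div_pos (mul_pos (norm_pos_iff.mpr g.det_ne_zero) x.pos) (x.den_pos (row_ne g 1))

noncomputable instance : SMul (GL (Fin 2) ℂ) H3 := ⟨act⟩

theorem smul_z (x : H3) :
    (g • x).z = x.num (g 0 0) (g 0 1) (g 1 0) (g 1 1) / (x.den (g 1 0) (g 1 1) : ℝ) := rfl

theorem smul_y (x : H3) : (g • x).y =
    ‖(g : Matrix (Fin 2) (Fin 2) ℂ).det‖ * x.y / x.den (g 1 0) (g 1 1) := rfl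

/-- **Transformation of the Hermitian form.** -/
theorem q_smul_eq (x : H3) (u v : ℂ) : (g • x).q u v =
    x.q (u * g 0 0 + v * g 1 0) (u * g 0 1 + v * g 1 1) /
      ‖(g : Matrix (Fin 2) (Fin 2) ℂ).det‖ := by
  have hD := x.den_pos (row_ne g 1)
  have hy := x.pos
  have hdet : 0 < ‖(g : Matrix (Fin 2) (Fin 2) ℂ).det‖ := norm_pos_iff.mpr g.det_ne_zero
  have hL := x.lagrange (g 0 0) (g 0 1) (g 1 0) (g 1 1)
  rw [← Matrix.det_fin_two] at hL
  rw [q, q, den_expand, smul_y]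
  have hz : ‖u * (g • x).z + v‖ ^ 2 + ‖u‖ ^ 2 * (g • x).y ^ 2 =
      (‖u‖ ^ 2 * x.den (g 0 0) (g 0 1) +
        2 * (u * conj v * x.num (g 0 0) (g 0 1) (g 1 0) (g 1 1)).re +
        ‖v‖ ^ 2 * x.den (g 1 0) (g 1 1)) / x.den (g 1 0) (g 1 1) := by
    have e1 : ‖u * (g • x).z + v‖ ^ 2 = ‖u‖ ^ 2 * ‖(g • x).z‖ ^ 2 +
        2 * (u * conj v * (g • x).z).re + ‖v‖ ^ 2 := by
      simp only [Complex.sq_norm, Complex.normSq_apply, Complex.add_re, Complex.add_im,
        Complex.mul_re, Complex.mul_im, Complex.conj_re, Complex.conj_im]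
      ring
    have e2 : (u * conj v * (g • x).z).re =
        (u * conj v * x.num (g 0 0) (g 0 1) (g 1 0) (g 1 1)).re / x.den (g 1 0) (g 1 1) := by
      rw [smul_z, ← mul_div_assoc, Complex.div_ofReal_re]
    have e3 : ‖(g • x).z‖ ^ 2 + (g • x).y ^ 2 = x.den (g 0 0) (g 0 1) / x.den (g 1 0) (g 1 1) := by
      rw [smul_z, smul_y, norm_div, Complex.norm_real, Real.norm_of_nonneg hD.le]
      rw [div_pow, div_pow, mul_pow, ← add_div, hL]
      field_simp
    rw [e1, e2]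
    calc ‖u‖ ^ 2 * ‖(g • x).z‖ ^ 2 + 2 * ((u * conj v *
          x.num (g 0 0) (g 0 1) (g 1 0) (g 1 1)).re / x.den (g 1 0) (g 1 1)) + ‖v‖ ^ 2 +
          ‖u‖ ^ 2 * (g • x).y ^ 2
        = ‖u‖ ^ 2 * (‖(g • x).z‖ ^ 2 + (g • x).y ^ 2) + 2 * ((u * conj v *
          x.num (g 0 0) (g 0 1) (g 1 0) (g 1 1)).re / x.den (g 1 0) (g 1 1)) + ‖v‖ ^ 2 := by
          ring
      _ = _ := by
          rw [e3]
          field_simp
  rw [den, hz]
  field_simp

noncomputable instance : MulAction (GL (Fin 2) ℂ) H3 where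
  one_smul x := by
    apply ext_q
    intro c d
    rw [q_smul_eq]
    simp
  mul_smul g h x := by
    apply ext_q
    intro c d
    rw [q_smul_eq, q_smul_eq, q_smul_eq, div_div, ← norm_mul, Units.val_mul, Matrix.det_mul]
    rw [mul_comm (h : Matrix (Fin 2) (Fin 2) ℂ).det]
    congr 2
    · simp only [Matrix.mul_apply, Fin.sum_univ_two]
      ring
    · simp only [Matrix.mul_apply, Fin.sum_univ_two]
      ring

/-- Height of a translate. -/
theorem y_smul (x : H3) :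
    (g • x).y = ‖(g : Matrix (Fin 2) (Fin 2) ℂ).det‖ / x.q (g 1 0) (g 1 1) := by
  rw [smul_y, q, div_div_eq_mul_div]

/-- **Hadamard's inequality** -/
theorem hadamard (x : H3) (a b c d : ℂ) : ‖a * d - b * c‖ ^ 2 ≤ x.q a b * x.q c d := by
  have h := x.lagrange a b c d
  have hy := x.pos
  rw [q, q, div_mul_div_comm, le_div_iff₀ (by positivity), ← h]
  nlinarith [sq_nonneg ‖x.num a b c d‖]

end H3

end Fermat.Agent.LT
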