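import Fermat.Agent.LT.H3

set_option autoImplicit false

/-!
# The product of hyperbolic spaces attached to a totally complex field
-/

namespace Fermat.Agent.LT

open Matrix NumberField

variable (F : Type*) [Field F]

/-- `∏_w H3` -/
def HF := InfinitePlace F → H3

variable {F}

/-- the embedding of `GL₂(F)` in `GL₂(ℂ)` at the place `w` -/
noncomputable def embGL (w : InfinitePlace F) : GL (Fin 2) F →* GL (Fin 2) ℂ :=
  Matrix.GeneralLinearGroup.map w.embedding

@[simp] theorem embGL_apply (w : InfinitePlace F) (g : GL (Fin 2) F) (i j : Fin 2) :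
    embGL w g i j = w.embedding (g i j) := rfl

theorem det_embGL (w : InfinitePlace F) (g : GL (Fin 2) F) :
    ((embGL w g : GL (Fin 2) ℂ) : Matrix (Fin 2) (Fin 2) ℂ).det =
      w.embedding (g : Matrix (Fin 2) (Fin 2) F).det := by
  rw [Matrix.det_fin_two, Matrix.det_fin_two, embGL_apply, embGL_apply, embGL_apply, embGL_apply]
  rw [map_sub, map_mul, map_mul]

noncomputable instance : MulAction (GL (Fin 2) F) (HF F) where
  smul g x := fun w => embGL w g • x w
  one_smul x := by
    funext w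
    show embGL w 1 • x w = x w
    rw [map_one, one_smul]
  mul_smul g h x := by
    funext w
    show embGL w (g * h) • x w = embGL w g • embGL w h • x w
    rw [map_mul, mul_smul]

theorem smul_HF_apply (g : GL (Fin 2) F) (x : HF F) (w : InfinitePlace F) :
    (g • x) w = embGL w g • x w := rfl

/-- translation matrices in `SL₂` -/
def nSL (b : F) : SpecialLinearGroup (Fin 2) F := ⟨!![1, b; 0, 1], by simp⟩

/-- diagonal matrices in `SL₂` -/
noncomputable def dSL (u : F) (hu : u ≠ 0) : SpecialLinearGroup (Fin 2) F :=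
  ⟨!![u, 0; 0, u⁻¹], by simp [hu]⟩

/-- translation matrices -/
def nMat (b : F) : GL (Fin 2) F := SpecialLinearGroup.toGL (nSL b)

theorem nMat_coe (b : F) : ((nMat b : GL (Fin 2) F) : Matrix (Fin 2) (Fin 2) F) = !![1, b; 0, 1] :=
  rfl

/-- diagonal matrices of determinant one -/
noncomputable def dMat (u : F) (hu : u ≠ 0) : GL (Fin 2) F :=
  SpecialLinearGroup.toGL (dSL u hu)

theorem dMat_coe (u : F) (hu : u ≠ 0) :
    ((dMat u hu : GL (Fin 2) F) : Matrix (Fin 2) (Fin 2) F) = !![u, 0; 0, u⁻¹] := rfl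

theorem nMat_smul_z (b : F) (x : HF F) (w : InfinitePlace F) :
    ((nMat b • x) w).z = (x w).z + w.embedding b := by
  rw [smul_HF_apply, H3.smul_z]
  have e1 : (embGL w (nMat b)) 0 0 = 1 := by rw [embGL_apply, nMat_coe]; simp
  have e2 : (embGL w (nMat b)) 0 1 = w.embedding b := by rw [embGL_apply, nMat_coe]; simp
  have e3 : (embGL w (nMat b)) 1 0 = 0 := by rw [embGL_apply, nMat_coe]; simp
  have e4 : (embGL w (nMat b)) 1 1 = 1 := by rw [embGL_apply, nMat_coe]; simp
  rw [e1, e2, e3, e4]
  simp [H3.num, H3.den]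

theorem nMat_smul_y (b : F) (x : HF F) (w : InfinitePlace F) :
    ((nMat b • x) w).y = (x w).y := by
  rw [smul_HF_apply, H3.smul_y, det_embGL]
  have e3 : (embGL w (nMat b)) 1 0 = 0 := by rw [embGL_apply, nMat_coe]; simp
  have e4 : (embGL w (nMat b)) 1 1 = 1 := by rw [embGL_apply, nMat_coe]; simp
  rw [e3, e4, nMat_coe]
  simp [H3.den]

theorem dMat_smul_y (u : F) (hu : u ≠ 0) (x : HF F) (w : InfinitePlace F) :
    ((dMat u hu • x) w).y = ‖w.embedding u‖ ^ 2 * (x w).y := by
  rw [smul_HF_apply, H3.smul_y, det_embGL]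
  have e3 : (embGL w (dMat u hu)) 1 0 = 0 := by rw [embGL_apply, dMat_coe]; simp
  have e4 : (embGL w (dMat u hu)) 1 1 = (w.embedding u)⁻¹ := by rw [embGL_apply, dMat_coe]; simp
  rw [e3, e4, dMat_coe]
  have : ‖w.embedding u‖ ≠ 0 := by rwa [norm_ne_zero_iff, map_ne_zero]
  simp [H3.den, hu]
  field_simp

end Fermat.Agent.LT
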